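/-
Programme G1 (target S48), brick B4 (P2 = reduction), Γ-FREE WIRING — helper17.

`RED/Interface4` + `RED/InterfaceGe4` over an ARBITRARY base field
`F₀ : IntermediateField ℚ (LaurentSeries ℚ)` (for the Γ₀ stack `F₀ = modularFunctionFieldFull M`,
for G1 the field `F₁(M)·F₀(4|9)` of the B2 definition file):

* `FbarG F₀ = ℚ̄·F₀ ⊂ ℚ̄((q))`, `FKG F₀ K = K·F₀ ⊂ K((q))`;
* `CLBarG F₀ ℓ A` : the core lemma over `ℚ̄`, field form;
* `CLNumG F₀ ℓ A K` : the core lemma over a number field `K ⊂ ℚ̄` — LITERALLY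
  `NumInst4.CLStmt (AK A K) (FKG F₀ K) ℓ` (`clNumG_iff`);
* `DescStepGeG`, `NumStepG`, `clBarG_of_descStepGeG`, `ClAllG`;
* sanity: at `F₀ = modularFunctionFieldFull M` these ARE the Γ₀ contracts (`clBarG_full_iff`,
  `clNumG_full_iff`, both `Iff.rfl`).
-/
import Mathlib
import Fermat.Agent.RED.InterfaceGe4
import Fermat.Agent.RED.NumInst4

set_option autoImplicit false

open HahnSeries AlgebraicCurve ModularCurve

noncomputable section

namespace Fermat.Agent.DS.G1.RED.IfaceGen17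

open Fermat.Agent.RED.Interface4 Fermat.Agent.RED.NumInst4

variable (F₀ : IntermediateField ℚ (LaurentSeries ℚ))

/-- `ℚ̄·F₀ ⊂ ℚ̄((q))`. -/
abbrev FbarG : IntermediateField Qbar (LaurentSeries Qbar) := laurentBaseChange Qbar F₀

/-- `K·F₀ ⊂ K((q))` for a subfield `K ⊂ ℚ̄`. -/
abbrev FKG (K : IntermediateField ℚ Qbar) : IntermediateField K (LaurentSeries K) :=
  laurentBaseChange K F₀

/-- **(CL) over `ℚ̄` for the function field `ℚ̄·F₀`, field form.** -/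
def CLBarG (ℓ : ℕ) (A : ValuationSubring Qbar) : Prop :=
  ∀ (P Q : LaurentSeries A)
    (hP : coeffMap A.subtype P ∈ FbarG F₀) (hQ : coeffMap A.subtype Q ∈ FbarG F₀),
    coeffMap (IsLocalRing.residue A) P = coeffMap (IsLocalRing.residue A) Q →
    coeffMap (IsLocalRing.residue A) P ≠ 0 →
    ∀ m : ℕ, ¬ ℓ ∣ m →
      (∀ v : Place Qbar (FbarG F₀),
        (m : ℤ) ∣ v.ord (⟨coeffMap A.subtype P, hP⟩ : FbarG F₀) -
          v.ord (⟨coeffMap A.subtype Q, hQ⟩ : FbarG F₀)) →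
      ∃ s : FbarG F₀, s ^ m * (⟨coeffMap A.subtype Q, hQ⟩ : FbarG F₀) = ⟨coeffMap A.subtype P, hP⟩

/-- **(CL) over a number field `K ⊂ ℚ̄` for `K·F₀`.**  Conclusion up to a nonzero constant. -/
def CLNumG (ℓ : ℕ) (A : ValuationSubring Qbar) (K : IntermediateField ℚ Qbar) : Prop :=
  CLStmt (AK A K) (FKG F₀ K) ℓ

theorem clNumG_iff (ℓ : ℕ) (A : ValuationSubring Qbar) (K : IntermediateField ℚ Qbar) :
    CLNumG F₀ ℓ A K ↔ CLStmt (AK A K) (FKG F₀ K) ℓ := Iff.rfl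

/-- **Chapter DESC**, final shape. -/
def DescStepGeG (ℓ : ℕ) (A : ValuationSubring Qbar) : Prop :=
  ∀ K₀ : IntermediateField ℚ Qbar, FiniteDimensional ℚ K₀ →
    (∀ K : IntermediateField ℚ Qbar, FiniteDimensional ℚ K → K₀ ≤ K → CLNumG F₀ ℓ A K) →
      CLBarG F₀ ℓ A

/-- **CORE + MODEL**, final shape. -/
def NumStepG (ℓ : ℕ) (A : ValuationSubring Qbar) : Prop :=
  ∃ K₀ : IntermediateField ℚ Qbar, FiniteDimensional ℚ K₀ ∧
    ∀ K : IntermediateField ℚ Qbar, FiniteDimensional ℚ K → K₀ ≤ K → CLNumG F₀ ℓ A K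

variable {F₀}

theorem clBarG_of_descStepGeG {ℓ : ℕ} {A : ValuationSubring Qbar}
    (hdesc : DescStepGeG F₀ ℓ A) (hnum : NumStepG F₀ ℓ A) : CLBarG F₀ ℓ A := by
  obtain ⟨K₀, hK₀, h⟩ := hnum
  exact hdesc K₀ hK₀ h

variable (F₀)

/-- `(CL)` for `ℚ̄·F₀` at every valuation subring of `ℚ̄` lying over `ℓ`. -/
def ClAllG (ℓ : ℕ) : Prop :=
  ∀ A : ValuationSubring Qbar, A.LiesOverPrime ℓ → CLBarG F₀ ℓ A

/-! ### Sanity: the Γ₀ contracts are the instance `F₀ = modularFunctionFieldFull M` -/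

theorem clBarG_full_iff (ℓ M : ℕ) (A : ValuationSubring Qbar) :
    CLBarG (modularFunctionFieldFull M) ℓ A ↔ CLBar ℓ M A := Iff.rfl

theorem clNumG_full_iff (ℓ M : ℕ) (A : ValuationSubring Qbar) (K : IntermediateField ℚ Qbar) :
    CLNumG (modularFunctionFieldFull M) ℓ A K ↔ CLNum ℓ M A K := Iff.rfl

theorem descStepGeG_full_iff (ℓ M : ℕ) (A : ValuationSubring Qbar) :
    DescStepGeG (modularFunctionFieldFull M) ℓ A ↔
      Fermat.Agent.RED.InterfaceGe4.DescStepGe ℓ M A := Iff.rfl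

end Fermat.Agent.DS.G1.RED.IfaceGen17
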