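/-
Programme G1 (target S48), brick B4 (P2 = reduction), Γ-FREE WIRING — helper17.

**(EXT)** over an arbitrary base field `F₀ : IntermediateField ℚ (LaurentSeries ℚ)`:
the "Concrete" section of `RED/DESC/PlaceExtend27` with `modularFunctionFieldFull M` replaced by `F₀`.
The only input about `F₀` is a generator of `ℚ̄·F₀` in the sense of `X0.FF.IsGen` (a transcendental
element over which `ℚ̄·F₀` is finite), as a hypothesis.

* `baseChangeHomG F₀ K : K·F₀ →+* ℚ̄·F₀` (coefficientwise);
* `exists_place_above_G`, `exists_place_above_mem_G` : every place of `K·F₀ / K` extends to a place of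
  `ℚ̄·F₀ / ℚ̄`, with `ord_v ∘ bc = e · ord_w`, `e ≥ 1`.
-/
import Mathlib
import Fermat.Agent.RED.DESC.PlaceExtend27
import Fermat.Agent.DS.G1.RED.IfaceGen17

set_option autoImplicit false
set_option linter.unusedSectionVars false

namespace Fermat.Agent.DS.G1.RED.PlaceExtendGen17

open AlgebraicCurve ModularCurve HahnSeries
open Fermat.Agent.X0 Fermat.Agent.RED.Interface4 Fermat.Agent.RED.DESC
open Fermat.Agent.DS.G1.RED.IfaceGen17

noncomputable section

variable (F₀ : IntermediateField ℚ (LaurentSeries ℚ)) (K : IntermediateField ℚ Qbar)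

/-- Coefficientwise base change `K·F₀ → ℚ̄·F₀`. -/
def baseChangeHomG : FKG F₀ K →+* FbarG F₀ :=
  RingHom.codRestrict ((coeffMap (algebraMap K Qbar)).comp (FKG F₀ K).val.toRingHom) (FbarG F₀)
    (fun f => CoeffDescent1.coeffMap_mem_laurentBaseChange_of_algHom (algebraMap K Qbar) F₀ f.2)

@[simp] theorem coe_baseChangeHomG (f : FKG F₀ K) :
    ((baseChangeHomG F₀ K f : FbarG F₀) : LaurentSeries Qbar) =
      coeffMap (algebraMap K Qbar) (f : LaurentSeries K) := rfl

theorem baseChangeHomG_algebraMap (c : K) :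
    baseChangeHomG F₀ K (algebraMap K (FKG F₀ K) c) = algebraMap Qbar (FbarG F₀) (c : Qbar) := by
  apply Subtype.ext
  rw [coe_baseChangeHomG]
  exact CoeffDescent1.coeffMap_algebraMap_of_ringHom (algebraMap K Qbar) c

theorem baseChangeHomG_injective : Function.Injective (baseChangeHomG F₀ K) :=
  (baseChangeHomG F₀ K).injective

variable {F₀}

/-- **(EXT).**  Every place of `K·F₀ / K` extends to a place of `ℚ̄·F₀ / ℚ̄`. -/
theorem exists_place_above_G {x : FbarG F₀} (hx : FF.IsGen Qbar x) (w : Place K (FKG F₀ K)) :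
    ∃ (v : Place Qbar (FbarG F₀)) (e : ℕ), 0 < e ∧
      ∀ f : FKG F₀ K, v.ord (baseChangeHomG F₀ K f) = (e : ℤ) * w.ord f := by
  have h1 := PlaceExtend27.isAlgebraic_Qbar_over K
  exact PlaceExtend27.exists_place_above_abstract (baseChangeHomG F₀ K)
    (baseChangeHomG_algebraMap F₀ K) hx w

/-- **(EXT)**, membership form. -/
theorem exists_place_above_mem_G {x : FbarG F₀} (hx : FF.IsGen Qbar x)
    (w : Place K (FKG F₀ K)) :
    ∃ (v : Place Qbar (FbarG F₀)) (e : ℕ), 0 < e ∧
      (∀ f : FKG F₀ K, v.ord (baseChangeHomG F₀ K f) = (e : ℤ) * w.ord f) ∧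
      ∀ f : FKG F₀ K, baseChangeHomG F₀ K f ∈ v.toValuationSubring ↔ f ∈ w.toValuationSubring := by
  obtain ⟨v, e, he, hord⟩ := exists_place_above_G K hx w
  refine ⟨v, e, he, hord, fun f => ?_⟩
  rw [FF.ffp_mem_iff_ord_nonneg, FF.ffp_mem_iff_ord_nonneg, hord]
  have he' : (0 : ℤ) < (e : ℤ) := by exact_mod_cast he
  constructor
  · intro h
    by_contra hneg
    rw [not_le] at hneg
    have := mul_neg_of_pos_of_neg he' hneg
    omega
  · intro h
    exact mul_nonneg he'.le h

/-- Sanity: at `F₀ = modularFunctionFieldFull M` this is `PlaceExtend27.baseChangeHom`. -/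
theorem baseChangeHomG_full (M : ℕ) :
    baseChangeHomG (modularFunctionFieldFull M) K = PlaceExtend27.baseChangeHom M K := rfl

end

end Fermat.Agent.DS.G1.RED.PlaceExtendGen17
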