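/-
Programme G1 (target S48), brick B4 (P2 = reduction), Γ-FREE WIRING — helper17.

**Chapter DESC over an arbitrary base field `F₀ : IntermediateField ℚ (LaurentSeries ℚ)`**:
`(CL)` over all number fields `K ⊇ K₀` implies `(CL)` over `ℚ̄`.  Port of
`RED/DESC/{HypTransfer12, UnifDescent14, DescMain12, DescFinal12}` with `modularFunctionFieldFull M`
replaced by `F₀`; the only input about `F₀` is a generator `x` of `ℚ̄·F₀` (`X0.FF.IsGen ℚ̄ x`).

* `ord_eq_of_unif`, `dvd_ord_sub_of_bar`, `dvd_ord_of_bar` : hypothesis transfer (b);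
* `exists_descent_ge`, `exists_unif_descent`, `unif_descent` : uniformiser descent (a);
* `exists_root_bar` : root extraction (c);
* `descStepGeG : FF.IsGen ℚ̄ x → DescStepGeG F₀ ℓ A` : the chapter theorem.
-/
import Mathlib
import Fermat.Agent.RED.DESC.DescMain12
import Fermat.Agent.RED.DESC.UnifDescent14
import Fermat.Agent.X0.FFGenus
import Fermat.Agent.DS.G1.RED.PlaceExtendGen17

set_option autoImplicit false
set_option linter.unusedSectionVars false

open HahnSeries AlgebraicCurve ModularCurve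

namespace Fermat.Agent.DS.G1.RED.DescGen17

open Fermat.Agent.X0 Fermat.Agent.RED.Interface4 Fermat.Agent.RED.DESC
open Fermat.Agent.RED.DESC.CoeffDescent1 Fermat.Agent.RED.DESC.NumberFieldDVR27
open Fermat.Agent.DS.G1.RED.IfaceGen17 Fermat.Agent.DS.G1.RED.PlaceExtendGen17

noncomputable section

variable {F₀ : IntermediateField ℚ (LaurentSeries ℚ)}

/-! ### (b) hypothesis transfer -/

section Transfer

variable (K : IntermediateField ℚ Qbar)

/-- if `K·F₀` contains a uniformiser at `v`, the ramification index of `v` over `w` is one. -/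
theorem ord_eq_of_unif {w : Place K (FKG F₀ K)} {v : Place Qbar (FbarG F₀)} {e : ℕ}
    (hord : ∀ f : FKG F₀ K, v.ord (baseChangeHomG F₀ K f) = (e : ℤ) * w.ord f)
    (τ : FKG F₀ K) (hτ : v.ord (baseChangeHomG F₀ K τ) = 1) (f : FKG F₀ K) :
    v.ord (baseChangeHomG F₀ K f) = w.ord f := by
  have h1 := hord τ
  rw [hτ] at h1
  have he : (e : ℤ) = 1 := by
    have hdvd : (e : ℤ) ∣ 1 := ⟨w.ord τ, h1⟩
    exact Int.eq_one_of_dvd_one (Int.natCast_nonneg e) hdvd
  rw [hord f, he, one_mul]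

/-- **(b)** hypothesis transfer, difference form (the literal hypothesis of `CLNumG`). -/
theorem dvd_ord_sub_of_bar {x : FbarG F₀} (hx : FF.IsGen Qbar x) (p q : FKG F₀ K) (m : ℕ)
    (hbar : ∀ v : Place Qbar (FbarG F₀),
      (m : ℤ) ∣ v.ord (baseChangeHomG F₀ K p) - v.ord (baseChangeHomG F₀ K q))
    (hunif : ∀ v : Place Qbar (FbarG F₀),
      v.ord (baseChangeHomG F₀ K p) - v.ord (baseChangeHomG F₀ K q) ≠ 0 →
        ∃ τ : FKG F₀ K, v.ord (baseChangeHomG F₀ K τ) = 1)
    (w : Place K (FKG F₀ K)) : (m : ℤ) ∣ w.ord p - w.ord q := by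
  obtain ⟨v, e, he, hord⟩ := exists_place_above_G K hx w
  by_cases h0 : v.ord (baseChangeHomG F₀ K p) - v.ord (baseChangeHomG F₀ K q) = 0
  · rw [hord p, hord q, ← mul_sub] at h0
    have he0 : (e : ℤ) ≠ 0 := by exact_mod_cast he.ne'
    rcases mul_eq_zero.mp h0 with h | h
    · exact absurd h he0
    · rw [h]
      exact dvd_zero _
  · obtain ⟨τ, hτ⟩ := hunif v h0
    have h := hbar v
    rwa [ord_eq_of_unif K hord τ hτ p, ord_eq_of_unif K hord τ hτ q] at h

/-- **(b)** hypothesis transfer, single-element form. -/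
theorem dvd_ord_of_bar {x : FbarG F₀} (hx : FF.IsGen Qbar x) (u : FKG F₀ K) (m : ℕ)
    (hbar : ∀ v : Place Qbar (FbarG F₀), (m : ℤ) ∣ v.ord (baseChangeHomG F₀ K u))
    (hunif : ∀ v : Place Qbar (FbarG F₀), v.ord (baseChangeHomG F₀ K u) ≠ 0 →
      ∃ τ : FKG F₀ K, v.ord (baseChangeHomG F₀ K τ) = 1)
    (w : Place K (FKG F₀ K)) : (m : ℤ) ∣ w.ord u := by
  have h := dvd_ord_sub_of_bar K hx u 1 m
    (fun v => by rw [map_one, Place.ord_one, sub_zero]; exact hbar v)
    (fun v hv => hunif v (by rwa [map_one, Place.ord_one, sub_zero] at hv)) w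
  rwa [Place.ord_one, sub_zero] at h

end Transfer

/-! ### (a) uniformiser descent -/

section Unif

variable (F₀)

/-- A fixed element of `ℚ̄·F₀` descends to a number field above `K₀`, and to all larger fields. -/
theorem exists_descent_ge (K₀ : IntermediateField ℚ Qbar) [FiniteDimensional ℚ K₀]
    (x : FbarG F₀) :
    ∃ K₁ : IntermediateField ℚ Qbar, FiniteDimensional ℚ K₁ ∧ K₀ ≤ K₁ ∧
      ∀ K : IntermediateField ℚ Qbar, K₁ ≤ K → ∃ x' : FKG F₀ K, baseChangeHomG F₀ K x' = x := by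
  have := NumberFieldDVR27.isAlgebraic_Qbar
  obtain ⟨K₁, hK₀, hfin, x', hx', hxx⟩ :=
    CoeffDescent1.exists_finite_descent (L := Qbar) (F₀ := F₀) K₀ x.2
  refine ⟨K₁, hfin, hK₀, fun K hK => ?_⟩
  obtain ⟨x'', hx'', h''⟩ := CoeffDescent1.exists_lift_of_le hK hx'
  refine ⟨⟨x'', hx''⟩, Subtype.ext ?_⟩
  rw [coe_baseChangeHomG]
  exact h''.trans hxx

/-- **Uniformiser descent.** -/
theorem exists_unif_descent (K₀ : IntermediateField ℚ Qbar) [FiniteDimensional ℚ K₀]
    (S : Finset (Place Qbar (FbarG F₀))) :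
    ∃ K₁ : IntermediateField ℚ Qbar, FiniteDimensional ℚ K₁ ∧ K₀ ≤ K₁ ∧
      ∀ K : IntermediateField ℚ Qbar, K₁ ≤ K → ∀ v ∈ S,
        ∃ τ' : FKG F₀ K, v.ord (baseChangeHomG F₀ K τ') = 1 := by
  classical
  induction S using Finset.induction_on with
  | empty => exact ⟨K₀, inferInstance, le_rfl, fun K _ v hv => absurd hv (Finset.notMem_empty v)⟩
  | insert v S _ ih =>
    obtain ⟨K₁, hfin₁, hK₁, H₁⟩ := ih
    have := hfin₁
    obtain ⟨π, hπ⟩ := IsDiscreteValuationRing.exists_irreducible v.toValuationSubring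
    obtain ⟨K₂, hfin₂, hK₂, H₂⟩ := exists_descent_ge F₀ K₁ (π : FbarG F₀)
    refine ⟨K₂, hfin₂, hK₁.trans hK₂, fun K hK u hu => ?_⟩
    rcases Finset.mem_insert.mp hu with rfl | hu
    · obtain ⟨τ', hτ'⟩ := H₂ K hK
      exact ⟨τ', by rw [hτ', Place.ord_coe_irreducible u hπ]⟩
    · exact H₁ K (hK₂.trans hK) u hu

/-- **Uniformiser descent**, in the shape consumed by the assembly. -/
theorem unif_descent (S : Finset (Place Qbar (FbarG F₀))) :
    ∃ K₁ : IntermediateField ℚ Qbar, FiniteDimensional ℚ K₁ ∧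
      ∀ K : IntermediateField ℚ Qbar, FiniteDimensional ℚ K → K₁ ≤ K → ∀ v ∈ S,
        ∃ τ : FKG F₀ K, v.ord (baseChangeHomG F₀ K τ) = 1 := by
  have : FiniteDimensional ℚ (⊥ : IntermediateField ℚ Qbar) := inferInstance
  obtain ⟨K₁, hfin, -, H⟩ := exists_unif_descent F₀ ⊥ S
  exact ⟨K₁, hfin, fun K _ hK v hv => H K hK v hv⟩

/-- **(c)**: from `s ^ m * q = c • p` over `K` (`c ≠ 0`) to `s' ^ m * q̄ = p̄` over `ℚ̄`. -/
theorem exists_root_bar (K : IntermediateField ℚ Qbar) (m : ℕ) (hm : m ≠ 0) (p q : FKG F₀ K)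
    (c : K) (hc : c ≠ 0) (s : FKG F₀ K) (h : s ^ m * q = c • p) :
    ∃ s' : FbarG F₀, s' ^ m * baseChangeHomG F₀ K q = baseChangeHomG F₀ K p := by
  obtain ⟨d, hd⟩ := IsAlgClosed.exists_pow_nat_eq ((c : K) : Qbar) (Nat.pos_of_ne_zero hm)
  have hcQ : ((c : K) : Qbar) ≠ 0 := by
    intro h0
    exact hc (Subtype.ext h0)
  have hd0 : d ≠ 0 := by
    rintro rfl
    rw [zero_pow hm] at hd
    exact hcQ hd.symm
  have hdF : algebraMap Qbar (FbarG F₀) d ≠ 0 := (map_ne_zero _).mpr hd0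
  refine ⟨(algebraMap Qbar (FbarG F₀) d)⁻¹ * baseChangeHomG F₀ K s, ?_⟩
  have h1 := congrArg (baseChangeHomG F₀ K) h
  rw [map_mul, map_pow, Algebra.smul_def, map_mul, baseChangeHomG_algebraMap, ← hd, map_pow] at h1
  rw [mul_pow, inv_pow, mul_assoc, h1, ← mul_assoc, inv_mul_cancel₀ (pow_ne_zero m hdF), one_mul]

end Unif

/-! ### The chapter theorem -/

/-- The divisor of a nonzero function of `ℚ̄·F₀`, as a `Finsupp`. -/
theorem exists_divisor_G {x : FbarG F₀} (hx : FF.IsGen Qbar x) {f : FbarG F₀} (hf : f ≠ 0) :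
    ∃ D : Divisor Qbar ↥(FbarG F₀), (∀ v, D v = v.ord f) ∧ Divisor.degree D = 0 :=
  (FFGenus.hasPrincipalDivisors hx).exists_divisor f hf

/-- **Chapter DESC** over an arbitrary `F₀` with a generator of `ℚ̄·F₀`. -/
theorem descStepGeG {x : FbarG F₀} (hx : FF.IsGen Qbar x) (ℓ : ℕ) (A : ValuationSubring Qbar) :
    DescStepGeG F₀ ℓ A := by
  classical
  intro K₀ hK₀ hnum P Q hP hQ hred hne m hℓm hord
  have := hK₀
  have : Algebra.IsAlgebraic ℚ Qbar := isAlgebraic_Qbar
  have hm : 0 < m := by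
    rcases Nat.eq_zero_or_pos m with h | h
    · exact absurd (h ▸ dvd_zero ℓ) hℓm
    · exact h
  -- 1. descent of `P̄`, `Q̄`
  obtain ⟨K₁, hK₀₁, hK₁, p₁, hp₁, hp₁eq⟩ := exists_finite_descent (F₀ := F₀) K₀ hP
  have := hK₁
  obtain ⟨K₂, hK₁₂, hK₂, q₂, hq₂, hq₂eq⟩ := exists_finite_descent (F₀ := F₀) K₁ hQ
  have := hK₂
  -- 2. supports
  have hQred : coeffMap (IsLocalRing.residue A) Q ≠ 0 := hred ▸ hne
  have hPb0 : (⟨coeffMap A.subtype P, hP⟩ : FbarG F₀) ≠ 0 := by
    intro h0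
    have h1 : coeffMap A.subtype P = 0 := congrArg Subtype.val h0
    have h2 : P = 0 := by
      apply coeffMap_injective_of_injective A.subtype Subtype.val_injective
      rw [h1, map_zero]
    exact hne (by rw [h2, map_zero])
  have hQb0 : (⟨coeffMap A.subtype Q, hQ⟩ : FbarG F₀) ≠ 0 := by
    intro h0
    have h1 : coeffMap A.subtype Q = 0 := congrArg Subtype.val h0
    have h2 : Q = 0 := by
      apply coeffMap_injective_of_injective A.subtype Subtype.val_injective
      rw [h1, map_zero]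
    exact hQred (by rw [h2, map_zero])
  obtain ⟨DP, hDP, -⟩ := exists_divisor_G hx hPb0
  obtain ⟨DQ, hDQ, -⟩ := exists_divisor_G hx hQb0
  obtain ⟨K₃, hK₃, hU⟩ := unif_descent F₀ (DP.support ∪ DQ.support)
  have := hK₃
  -- 3. the number field
  have hKfd : FiniteDimensional ℚ ↥(K₂ ⊔ K₃) := inferInstance
  have hK₀K : K₀ ≤ K₂ ⊔ K₃ := (hK₀₁.trans hK₁₂).trans le_sup_left
  have hK₃K : K₃ ≤ K₂ ⊔ K₃ := le_sup_right
  obtain ⟨p, hp, hpeq⟩ := exists_lift_of_le (hK₁₂.trans le_sup_left : K₁ ≤ K₂ ⊔ K₃) hp₁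
  obtain ⟨q, hq, hqeq⟩ := exists_lift_of_le (le_sup_left : K₂ ≤ K₂ ⊔ K₃) hq₂
  generalize K₂ ⊔ K₃ = K at hKfd hK₀K hK₃K p hp hpeq q hq hqeq
  have hpP : coeffMap (algebraMap K Qbar) p = coeffMap A.subtype P := hpeq.trans hp₁eq
  have hqQ : coeffMap (algebraMap K Qbar) q = coeffMap A.subtype Q := hqeq.trans hq₂eq
  -- 4. coefficients in `A ∩ K`
  have hpc : ∀ n, p.coeff n ∈ AK A K := fun n => by
    rw [mem_AK_iff]
    have h := congrArg (fun x : LaurentSeries Qbar => x.coeff n) hpP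
    simp only [coeffMap_coeff] at h
    have h' : ((p.coeff n : K) : Qbar) = ((P.coeff n : A) : Qbar) := h
    rw [h']
    exact (P.coeff n).2
  have hqc : ∀ n, q.coeff n ∈ AK A K := fun n => by
    rw [mem_AK_iff]
    have h := congrArg (fun x : LaurentSeries Qbar => x.coeff n) hqQ
    simp only [coeffMap_coeff] at h
    have h' : ((q.coeff n : K) : Qbar) = ((Q.coeff n : A) : Qbar) := h
    rw [h']
    exact (Q.coeff n).2
  obtain ⟨PK, hPK⟩ := DescMain12.exists_lift_coeff (AK A K) p hpc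
  obtain ⟨QK, hQK⟩ := DescMain12.exists_lift_coeff (AK A K) q hqc
  have hPKmem : coeffMap (AK A K).subtype PK ∈ FKG F₀ K := by rw [hPK]; exact hp
  have hQKmem : coeffMap (AK A K).subtype QK ∈ FKG F₀ K := by rw [hQK]; exact hq
  -- 5. reductions
  have hinclP : coeffMap (incl A K) PK = P := by
    apply coeffMap_injective_of_injective A.subtype Subtype.val_injective
    rw [← hpP, ← hPK, coeffMap_coeffMap, coeffMap_coeffMap]
    exact coeffMap_congr (RingHom.ext fun x => rfl) PK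
  have hinclQ : coeffMap (incl A K) QK = Q := by
    apply coeffMap_injective_of_injective A.subtype Subtype.val_injective
    rw [← hqQ, ← hQK, coeffMap_coeffMap, coeffMap_coeffMap]
    exact coeffMap_congr (RingHom.ext fun x => rfl) QK
  have hcomp : (resMap A K).comp (IsLocalRing.residue (AK A K))
      = (IsLocalRing.residue A).comp (incl A K) :=
    RingHom.ext fun x => resMap_residue A K x
  have hredK : ∀ X : LaurentSeries (AK A K),
      coeffMap (resMap A K) (coeffMap (IsLocalRing.residue (AK A K)) X)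
        = coeffMap (IsLocalRing.residue A) (coeffMap (incl A K) X) := fun X => by
    rw [coeffMap_coeffMap, coeffMap_coeffMap, hcomp]
  have hinj := coeffMap_injective_of_injective (resMap A K) (resMap_injective A K)
  have hred' : coeffMap (IsLocalRing.residue (AK A K)) PK
      = coeffMap (IsLocalRing.residue (AK A K)) QK := by
    apply hinj
    rw [hredK, hredK, hinclP, hinclQ, hred]
  have hne' : coeffMap (IsLocalRing.residue (AK A K)) PK ≠ 0 := by
    intro h0
    apply hne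
    rw [← hinclP, ← hredK, h0, map_zero]
  -- 6. base change of `p`, `q`
  have hbcP : baseChangeHomG F₀ K ⟨coeffMap (AK A K).subtype PK, hPKmem⟩
      = (⟨coeffMap A.subtype P, hP⟩ : FbarG F₀) := by
    apply Subtype.ext
    rw [coe_baseChangeHomG]
    show coeffMap (algebraMap K Qbar) (coeffMap (AK A K).subtype PK) = _
    rw [hPK, hpP]
  have hbcQ : baseChangeHomG F₀ K ⟨coeffMap (AK A K).subtype QK, hQKmem⟩
      = (⟨coeffMap A.subtype Q, hQ⟩ : FbarG F₀) := by
    apply Subtype.ext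
    rw [coe_baseChangeHomG]
    show coeffMap (algebraMap K Qbar) (coeffMap (AK A K).subtype QK) = _
    rw [hQK, hqQ]
  -- 7. the place hypothesis over `K`
  have hordK : ∀ w : Place K (FKG F₀ K),
      (m : ℤ) ∣ w.ord (⟨coeffMap (AK A K).subtype PK, hPKmem⟩ : FKG F₀ K) -
        w.ord (⟨coeffMap (AK A K).subtype QK, hQKmem⟩ : FKG F₀ K) := by
    apply dvd_ord_sub_of_bar K hx _ _ m
    · intro v
      rw [hbcP, hbcQ]
      exact hord v
    · intro v hv
      rw [hbcP, hbcQ] at hv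
      apply hU K hKfd hK₃K v
      rw [Finset.mem_union, Finsupp.mem_support_iff, Finsupp.mem_support_iff, hDP, hDQ]
      by_contra hcon
      rw [not_or, not_not, not_not] at hcon
      apply hv
      rw [hcon.1, hcon.2, sub_zero]
  -- 8. `(CL)` over `K` and root extraction
  obtain ⟨c, s, hc0, hs⟩ := hnum K hKfd hK₀K PK QK hPKmem hQKmem hred' hne' m hℓm hordK
  obtain ⟨d, hd⟩ := IsAlgClosed.exists_pow_nat_eq ((c : K) : Qbar) hm
  have hcQ : ((c : K) : Qbar) ≠ 0 := by
    intro h0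
    apply hc0
    exact_mod_cast h0
  have hd0 : d ≠ 0 := by
    rintro rfl
    rw [zero_pow hm.ne'] at hd
    exact hcQ hd.symm
  have hdF : algebraMap Qbar (FbarG F₀) d ≠ 0 := by
    rw [Ne, map_eq_zero_iff _ (algebraMap Qbar (FbarG F₀)).injective]
    exact hd0
  refine ⟨baseChangeHomG F₀ K s * (algebraMap Qbar (FbarG F₀) d)⁻¹, ?_⟩
  have h1 := congrArg (baseChangeHomG F₀ K) hs
  rw [map_mul, map_pow, hbcQ, Algebra.smul_def, map_mul, baseChangeHomG_algebraMap, hbcP, ← hd,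
    map_pow] at h1
  rw [mul_pow, inv_pow, mul_assoc, mul_comm _ (⟨coeffMap A.subtype Q, hQ⟩ : FbarG F₀), ← mul_assoc,
    h1, mul_comm, ← mul_assoc, inv_mul_cancel₀ (pow_ne_zero m hdF), one_mul]

/-- `(CL)` over `ℚ̄` from a generator of `ℚ̄·F₀` and `(CL)` over all large number fields. -/
theorem clBarG_of_numStepG {x : FbarG F₀} (hx : FF.IsGen Qbar x) {ℓ : ℕ}
    {A : ValuationSubring Qbar} (hnum : NumStepG F₀ ℓ A) : CLBarG F₀ ℓ A :=
  clBarG_of_descStepGeG (descStepGeG hx ℓ A) hnum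

end

end Fermat.Agent.DS.G1.RED.DescGen17
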