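/-
Programme G1 (target S48), brick B4 (P2 = reduction), Γ-FREE WIRING — helper17.

**NUM from MODEL, and MODEL from per-field targets, over an arbitrary base field
`F₀ : IntermediateField ℚ (LaurentSeries ℚ)`** (generic `RED/NumMain4` + `RED/ModelMain4`).

* `ModelStepG F₀ A` : two-chart models (`NumInst4.HasModel`) of `K·F₀` over `A ∩ K` for all large
  number fields `K`;
* `numStepG_of_modelG : ModelStepG F₀ A → NumStepG F₀ ℓ A` (CORE `CoreMain24.coreB` and
  `AlgClosedIn10.algClosedIn` are already generic);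
* `TargetsAt F₀ A K ϖ` : the per-field contract of MODEL = literally the hypotheses of
  `ModelIface4.hasModel_of_split` for `(O, E) = (A ∩ K, K·F₀)`:
  `E ≤ fracField O`, a parameter `t ∈ E ∩ gaussRing O` with `t̃` transcendental, `(DEG)+(IRR)` with
  `[E : K(t)] ≠ 0`, (LOC) off a set `S` of cusp values, over each `c ∈ S`, and at `t⁻¹ = 0`;
* `modelStepG_of_targets`, `clBarG_of_targets` : the whole chain
  `targets ⇒ HasModel ⇒ (CL) over number fields ⇒ (CL) over ℚ̄`.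

So B4 for a new function field (e.g. `F₁(M)·F₀(4|9)`) has to supply exactly `TargetsAt` for all large
`K` and a generator of `ℚ̄·F₀`.
-/
import Mathlib
import Fermat.Agent.RED.NumMain4
import Fermat.Agent.RED.ModelIface4
import Fermat.Agent.RED.DESC.NumberFieldDVR27
import Fermat.Agent.DS.G1.RED.DescGen17

set_option autoImplicit false
set_option linter.unusedSectionVars false

open HahnSeries AlgebraicCurve ModularCurve IntermediateField

noncomputable section

namespace Fermat.Agent.DS.G1.RED.NumGen17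

open Fermat.Agent.X0 Fermat.Agent.RED.Interface4 Fermat.Agent.RED.NumInst4
  Fermat.Agent.RED.NumMain4 Fermat.Agent.RED.PUR.GaussGen8 Fermat.Agent.RED.PUR.KtGauss8
  Fermat.Agent.RED.PUR.G1Package8 Fermat.Agent.RED.ModelIface4
  Fermat.Agent.RED.DESC.NumberFieldDVR27
  Fermat.Agent.DS.G1.RED.IfaceGen17 Fermat.Agent.DS.G1.RED.DescGen17

variable (F₀ : IntermediateField ℚ (LaurentSeries ℚ))

/-- The deliverable of MODEL for `F₀` over the place `A`. -/
def ModelStepG (A : ValuationSubring Qbar) : Prop :=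
  ∃ K₀ : IntermediateField ℚ Qbar, FiniteDimensional ℚ K₀ ∧
    ∀ K : IntermediateField ℚ Qbar, FiniteDimensional ℚ K → K₀ ≤ K →
      HasModel (AK A K) (FKG F₀ K)

variable {F₀}

/-- **NUM from MODEL**, generic base field. -/
theorem numStepG_of_modelG {ℓ : ℕ} (hℓ : ℓ.Prime) {A : ValuationSubring Qbar}
    (hA : A.LiesOverPrime ℓ) (h : ModelStepG F₀ A) : NumStepG F₀ ℓ A := by
  obtain ⟨K₀, hK₀, hK⟩ := h
  refine ⟨K₀, hK₀, fun K hKfd hle => ?_⟩
  exact clStmt_of_hasModel ℓ (coreBAt (AK A K) (FKG F₀ K)) (hK K hKfd hle)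
    (Fermat.Agent.RED.PUR.AlgClosedIn10.algClosedIn (FKG F₀ K))
    (exists_inv_of_not_dvd hℓ hA K)

variable (F₀)

/-- **The per-field contract of MODEL** = the hypotheses of `ModelIface4.hasModel_of_split` at
`(O, E) = (A ∩ K, K·F₀)` and the uniformiser `ϖ`. -/
def TargetsAt (A : ValuationSubring Qbar) (K : IntermediateField ℚ Qbar) (ϖ : ↥(AK A K)) : Prop :=
  ∃ (_ : FKG F₀ K ≤ fracField (AK A K)) (t : ↥(FKG F₀ K))
    (ht : (t : LaurentSeries K) ∈ gaussRing (AK A K)) (n : ℕ) (S : Set ↥(AK A K)),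
    Transcendental (Res (AK A K)) (gaussRed (AK A K) ⟨(t : LaurentSeries K), ht⟩) ∧
    relfinrank (Kt (AK A K) ⟨(t : LaurentSeries K), ht⟩) (FKG F₀ K) ≠ 0 ∧
    DegLe (AK A K) (FKG F₀ K) ⟨(t : LaurentSeries K), ht⟩ n ∧
    Irr (AK A K) (FKG F₀ K) ⟨(t : LaurentSeries K), ht⟩ n ∧
    SmoothOff (AK A K) (FKG F₀ K) ϖ t S ∧
    (∀ c ∈ S, SmoothOver (AK A K) (FKG F₀ K) ϖ t c) ∧
    SmoothOver (AK A K) (FKG F₀ K) ϖ t⁻¹ 0

/-- `TargetsAt` for every uniformiser over all large number fields. -/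
def TargetsG (A : ValuationSubring Qbar) : Prop :=
  ∃ K₀ : IntermediateField ℚ Qbar, FiniteDimensional ℚ K₀ ∧
    ∀ K : IntermediateField ℚ Qbar, FiniteDimensional ℚ K → K₀ ≤ K →
      ∀ ϖ : ↥(AK A K), Irreducible ϖ → TargetsAt F₀ A K ϖ

variable {F₀}

/-- One field: the targets give the two-chart model. -/
theorem hasModel_of_targetsAt {ℓ : ℕ} (hℓ : ℓ.Prime) {A : ValuationSubring Qbar}
    (hA : A.LiesOverPrime ℓ) (K : IntermediateField ℚ Qbar) [FiniteDimensional ℚ K]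
    {ϖ : ↥(AK A K)} (hϖ : Irreducible ϖ) (h : TargetsAt F₀ A K ϖ) :
    HasModel (AK A K) (FKG F₀ K) := by
  obtain ⟨hE, t, ht, n, S, htr, hn, hdeg, hirr, hoff, hover, hinf⟩ := h
  have hdvr : IsDiscreteValuationRing ↥(AK A K) := isDiscreteValuationRing_AK A K hℓ.ne_zero hA
  have hfin : Finite (↥(AK A K) ⧸ (Ideal.span {ϖ} : Ideal ↥(AK A K))) := by
    have h1 : Finite (IsLocalRing.ResidueField ↥(AK A K)) :=
      finite_residueField_AK A K hℓ.ne_zero hA
    rw [← hϖ.maximalIdeal_eq]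
    exact h1
  exact hasModel_of_split hϖ hE t ht htr hn hdeg hirr S hoff hover hinf

/-- **MODEL from the targets**, generic base field. -/
theorem modelStepG_of_targets {ℓ : ℕ} (hℓ : ℓ.Prime) {A : ValuationSubring Qbar}
    (hA : A.LiesOverPrime ℓ) (h : TargetsG F₀ A) : ModelStepG F₀ A := by
  obtain ⟨K₀, hK₀, hK⟩ := h
  refine ⟨K₀, hK₀, fun K hKfd hle => ?_⟩
  have hdvr : IsDiscreteValuationRing ↥(AK A K) := isDiscreteValuationRing_AK A K hℓ.ne_zero hA
  obtain ⟨ϖ, hϖ⟩ := IsDiscreteValuationRing.exists_irreducible ↥(AK A K)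
  exact hasModel_of_targetsAt hℓ hA K hϖ (hK K hKfd hle ϖ hϖ)

/-- **The whole chain**: a generator of `ℚ̄·F₀` and the MODEL targets over all large number fields
give `(CL)` over `ℚ̄` for the function field `ℚ̄·F₀`. -/
theorem clBarG_of_targets {x : FbarG F₀} (hx : FF.IsGen Qbar x) {ℓ : ℕ} (hℓ : ℓ.Prime)
    {A : ValuationSubring Qbar} (hA : A.LiesOverPrime ℓ) (h : TargetsG F₀ A) : CLBarG F₀ ℓ A :=
  clBarG_of_numStepG hx (numStepG_of_modelG hℓ hA (modelStepG_of_targets hℓ hA h))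

/-- All places over `ℓ` at once. -/
theorem clAllG_of_targets {x : FbarG F₀} (hx : FF.IsGen Qbar x) {ℓ : ℕ} (hℓ : ℓ.Prime)
    (h : ∀ A : ValuationSubring Qbar, A.LiesOverPrime ℓ → TargetsG F₀ A) : ClAllG F₀ ℓ :=
  fun A hA => clBarG_of_targets hx hℓ hA (h A hA)

end Fermat.Agent.DS.G1.RED.NumGen17
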